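import Fermat.Agent.S21.E.Defs
import Fermat.Agent.S21.E.CuspDecay
import Fermat.Agent.S21.E.Div
import Fermat.Agent.S21.E.Api

/-!
# Project ES, part E, work package E-DUAL, part D2: construction of the dual cusp forms

For a saturated and reduced tuple `t`, an index `k` and `m` with `m + 2 ≤ t.d k`, we construct the
weight `2` cusp form `ω = j ^ m * (E₄² E₆ / Δ) * N_{x0,k}`, where `N = (cmat Γ t.v)⁻¹`.
-/

set_option autoImplicit false

open UpperHalfPlane hiding I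
open Complex Filter Function Topology
open scoped Manifold MatrixGroups ModularForm Real

namespace Fermat.Agent.S21.E.Dual

noncomputable section

local notation "Δ" => ModularForm.discriminant
local notation "E₄" => ModularForm.E₄
local notation "E₆" => ModularForm.E₆

/-- Packaging: a holomorphic function, weight-`k` invariant under `Γ`, all of whose `SL(2,ℤ)`
translates vanish at `i∞`, is a cusp form. -/
theorem exists_cuspForm_of (Γ : Subgroup SL(2, ℤ)) [Γ.FiniteIndex] (k : ℤ) (f : ℍ → ℂ)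
    (hf : MDiff f) (hinv : ∀ γ ∈ Γ, f ∣[k] γ = f)
    (hzero : ∀ g : SL(2, ℤ), IsZeroAtImInfty (f ∣[k] g)) :
    ∃ ω : CuspForm (Γ.map (Matrix.SpecialLinearGroup.mapGL ℝ)) k, (ω : ℍ → ℂ) = f := by
  refine ⟨{ toFun := f, slash_action_eq' := ?_, holo' := hf, zero_at_cusps' := ?_ }, rfl⟩
  · rintro A ⟨γ, hγ, rfl⟩
    exact hinv γ hγ
  · intro c hc
    rw [Subgroup.IsArithmetic.isCusp_iff_isCusp_SL2Z] at hc
    rw [OnePoint.isZeroAt_iff_forall_SL2Z hc]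
    intro γ _
    exact hzero γ

/-- A continuous function agreeing on a dense set with a function which is zero at `i∞` is zero
at `i∞`. -/
theorem isZeroAtImInfty_of_eqOn_dense {h F : ℍ → ℂ} (hh : Continuous h)
    (hF : IsZeroAtImInfty F) {U : Set ℍ} (hU : Dense U) (heq : ∀ z ∈ U, h z = F z) :
    IsZeroAtImInfty h := by
  rw [isZeroAtImInfty_iff] at hF ⊢
  intro ε hε
  obtain ⟨A, hA⟩ := hF ε hε
  refine ⟨A + 1, fun z hz => ?_⟩
  have hopen : IsOpen {w : ℍ | A < w.im} := isOpen_lt continuous_const UpperHalfPlane.continuous_im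
  have hzmem : z ∈ {w : ℍ | A < w.im} := by
    show A < z.im
    linarith
  have hcl : z ∈ closure ({w : ℍ | A < w.im} ∩ U) := hU.open_subset_closure_inter hopen hzmem
  have hclosed : IsClosed {w : ℍ | ‖h w‖ ≤ ε} := isClosed_le hh.norm continuous_const
  have hsub : {w : ℍ | A < w.im} ∩ U ⊆ {w : ℍ | ‖h w‖ ≤ ε} := by
    rintro w ⟨hw1, hw2⟩
    show ‖h w‖ ≤ ε
    rw [heq w hw2]
    exact hA w (le_of_lt hw1)
  exact (closure_minimal hsub hclosed) hcl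

/-- An inequality between continuous functions which holds on a punctured neighbourhood holds on
a neighbourhood, provided the punctured neighbourhood filter is nontrivial. -/
theorem eventually_le_of_eventually_punctured {a b : ℍ → ℝ} (ha : Continuous a)
    (hb : Continuous b) (z₀ : ℍ) [hne : (𝓝[≠] z₀).NeBot]
    (h : ∀ᶠ z in 𝓝[≠] z₀, a z ≤ b z) : ∀ᶠ z in 𝓝 z₀, a z ≤ b z := by
  have h0 : a z₀ ≤ b z₀ :=
    le_of_tendsto_of_tendsto (ha.continuousAt.tendsto.mono_left nhdsWithin_le_nhds)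
      (hb.continuousAt.tendsto.mono_left nhdsWithin_le_nhds) h
  have h1 := eventually_nhdsWithin_iff.mp h
  filter_upwards [h1] with z hz
  by_cases hzz : z = z₀
  · rw [hzz]; exact h0
  · exact hz hzz

variable {Γ : Subgroup SL(2, ℤ)} [Fintype (SL(2, ℤ) ⧸ Γ)] [DecidableEq (SL(2, ℤ) ⧸ Γ)]

/-- The set where the determinant does not vanish is dense. -/
theorem dense_det_ne_zero (t : Tuple Γ) : Dense {z : ℍ | (cmat Γ t.v z).det ≠ 0} := by
  intro z₀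
  rw [mem_closure_iff_frequently]
  exact (det_frequently_ne_zero t z₀).filter_mono nhdsWithin_le_nhds

theorem neBot_punctured (t : Tuple Γ) (z₀ : ℍ) : (𝓝[≠] z₀).NeBot := by
  by_contra h
  rw [not_neBot] at h
  have := det_frequently_ne_zero t z₀
  rw [h] at this
  exact this (by simp)

/-- The numerator `E₄ ^ (3m+2) * E₆ * adj_{x0,k}`. -/
def num (t : Tuple Γ) (k : SL(2, ℤ) ⧸ Γ) (m : ℕ) : ℍ → ℂ :=
  fun z => E₄ z ^ (3 * m + 2) * E₆ z * (cmat Γ t.v z).adjugate (x0 Γ) k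

/-- The denominator `det * Δ ^ (m+1)`. -/
def den (t : Tuple Γ) (m : ℕ) : ℍ → ℂ :=
  fun z => (cmat Γ t.v z).det * Δ z ^ (m + 1)

theorem mdiff_E₄ : MDiff (fun z : ℍ => E₄ z) := ModularFormClass.holo E₄

theorem mdiff_E₆ : MDiff (fun z : ℍ => E₆ z) := ModularFormClass.holo E₆

theorem mdiff_Δ : MDiff (fun z : ℍ => Δ z) := CuspFormClass.holo CuspForm.discriminant

theorem mdiff_num (t : Tuple Γ) (k : SL(2, ℤ) ⧸ Γ) (m : ℕ) : MDiff (num t k m) :=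
  ((mdiff_E₄.pow (3 * m + 2)).mul mdiff_E₆).mul (mdiff_adjugate t (x0 Γ) k)

theorem mdiff_den (t : Tuple Γ) (m : ℕ) : MDiff (den t m) :=
  (mdiff_det t).mul (mdiff_Δ.pow (m + 1))

theorem exists_den_ne_zero (t : Tuple Γ) (m : ℕ) : ∃ z, den t m z ≠ 0 := by
  obtain ⟨z, hz⟩ := t.nondeg
  exact ⟨z, mul_ne_zero hz (pow_ne_zero _ (ModularForm.discriminant_ne_zero z))⟩

/-- If the determinant does not vanish, the adjugate is the determinant times the inverse. -/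
theorem adjugate_eq_det_mul_inv (t : Tuple Γ) (z : ℍ) (hz : (cmat Γ t.v z).det ≠ 0)
    (x k : SL(2, ℤ) ⧸ Γ) :
    (cmat Γ t.v z).adjugate x k = (cmat Γ t.v z).det * (cmat Γ t.v z)⁻¹ x k := by
  rw [Matrix.inv_def, Ring.inverse_eq_inv', Matrix.smul_apply, smul_eq_mul, ← mul_assoc,
    mul_inv_cancel₀ hz, one_mul]

/-- The local boundedness property of `E₄² E₆ * (inverse matrix)`; for a saturated tuple this is
`inv_bound_finite` of `E/Loc.lean`. -/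
def LocBound (t : Tuple Γ) : Prop :=
  ∀ z₀ : ℍ, ∃ C : ℝ, ∀ᶠ z : ℍ in 𝓝[≠] z₀, ∀ x k,
    ‖E₄ z ^ 2 * E₆ z * (cmat Γ t.v z)⁻¹ x k‖ ≤ C

/-- Local bound of the numerator by the denominator. -/
theorem num_le_den {t : Tuple Γ} (hloc : LocBound t)
    (k : SL(2, ℤ) ⧸ Γ) (m : ℕ) (z₀ : ℍ) :
    ∃ C : ℝ, ∀ᶠ z in 𝓝 z₀, ‖num t k m z‖ ≤ C * ‖den t m z‖ := by
  obtain ⟨C₀, hC₀⟩ := hloc z₀
  have hdet := det_eventually_ne_zero t z₀
  have hcE : Continuous (fun z : ℍ => ‖E₄ z‖) := mdiff_E₄.continuous.norm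
  have hcΔ : Continuous (fun z : ℍ => ‖Δ z‖) := mdiff_Δ.continuous.norm
  have hE : ∀ᶠ z in 𝓝 z₀, ‖E₄ z‖ < ‖E₄ z₀‖ + 1 :=
    hcE.continuousAt.eventually (gt_mem_nhds (lt_add_one _))
  have hΔ0 : 0 < ‖Δ z₀‖ := norm_pos_iff.mpr (ModularForm.discriminant_ne_zero z₀)
  have hΔ : ∀ᶠ z in 𝓝 z₀, ‖Δ z₀‖ / 2 < ‖Δ z‖ :=
    hcΔ.continuousAt.eventually (lt_mem_nhds (half_lt_self hΔ0))
  set B : ℝ := (‖E₄ z₀‖ + 1) ^ (3 * m) * |C₀| with hB
  have hB0 : 0 ≤ B := mul_nonneg (pow_nonneg (by positivity) _) (abs_nonneg _)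
  set D : ℝ := (‖Δ z₀‖ / 2) ^ (m + 1) with hD
  have hD0 : 0 < D := pow_pos (half_pos hΔ0) _
  refine ⟨B / D, ?_⟩
  have := neBot_punctured t z₀
  refine eventually_le_of_eventually_punctured (a := fun z => ‖num t k m z‖)
    (b := fun z => B / D * ‖den t m z‖) (mdiff_num t k m).continuous.norm
    (continuous_const.mul (mdiff_den t m).continuous.norm) z₀ ?_
  filter_upwards [hC₀, hdet, hE.filter_mono nhdsWithin_le_nhds,
    hΔ.filter_mono nhdsWithin_le_nhds] with z h1 h2 h3 h4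
  show ‖num t k m z‖ ≤ B / D * ‖den t m z‖
  have hadj := adjugate_eq_det_mul_inv t z h2 (x0 Γ) k
  have hnum : num t k m z = E₄ z ^ (3 * m) *
      (E₄ z ^ 2 * E₆ z * (cmat Γ t.v z)⁻¹ (x0 Γ) k) * (cmat Γ t.v z).det := by
    simp only [num]
    rw [hadj]
    ring
  have h5 : ‖num t k m z‖ ≤ B * ‖(cmat Γ t.v z).det‖ := by
    rw [hnum, norm_mul, norm_mul, norm_pow]
    have h6 : ‖E₄ z‖ ^ (3 * m) ≤ (‖E₄ z₀‖ + 1) ^ (3 * m) :=
      pow_le_pow_left₀ (norm_nonneg _) h3.le _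
    have h7 : ‖E₄ z ^ 2 * E₆ z * (cmat Γ t.v z)⁻¹ (x0 Γ) k‖ ≤ |C₀| :=
      (h1 (x0 Γ) k).trans (le_abs_self _)
    have := mul_le_mul h6 h7 (norm_nonneg _) (pow_nonneg (by positivity) _)
    exact mul_le_mul_of_nonneg_right this (norm_nonneg _)
  have h8 : D ≤ ‖Δ z‖ ^ (m + 1) := pow_le_pow_left₀ (half_pos hΔ0).le h4.le _
  have h9 : ‖den t m z‖ = ‖(cmat Γ t.v z).det‖ * ‖Δ z‖ ^ (m + 1) := by
    simp only [den]
    rw [norm_mul, norm_pow]
  rw [h9]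
  calc ‖num t k m z‖ ≤ B * ‖(cmat Γ t.v z).det‖ := h5
    _ = B / D * (‖(cmat Γ t.v z).det‖ * D) := by field_simp
    _ ≤ B / D * (‖(cmat Γ t.v z).det‖ * ‖Δ z‖ ^ (m + 1)) := by
        apply mul_le_mul_of_nonneg_left _ (div_nonneg hB0 hD0.le)
        exact mul_le_mul_of_nonneg_left h8 (norm_nonneg _)

/-- The quotient `num / den` as a holomorphic function. -/
theorem exists_quot {t : Tuple Γ} (hloc : LocBound t)
    (k : SL(2, ℤ) ⧸ Γ) (m : ℕ) :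
    ∃ h : ℍ → ℂ, MDiff h ∧ ∀ z, num t k m z = den t m z * h z :=
  exists_mdiff_quotient (mdiff_num t k m) (mdiff_den t m) (exists_den_ne_zero t m)
    fun z₀ _ => num_le_den hloc k m z₀

/-- The explicit expression in terms of the inverse matrix. -/
def expr (t : Tuple Γ) (x k : SL(2, ℤ) ⧸ Γ) (m : ℕ) : ℍ → ℂ :=
  fun z => (E₄ z ^ 3 / Δ z) ^ m * (E₄ z ^ 2 * E₆ z / Δ z) * (cmat Γ t.v z)⁻¹ x k

theorem quot_eq_expr {t : Tuple Γ} {k : SL(2, ℤ) ⧸ Γ} {m : ℕ} {h : ℍ → ℂ}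
    (hh : ∀ z, num t k m z = den t m z * h z) (z : ℍ) (hz : (cmat Γ t.v z).det ≠ 0) :
    h z = expr t (x0 Γ) k m z := by
  have hΔ := ModularForm.discriminant_ne_zero z
  have h1 := hh z
  simp only [num, den] at h1
  rw [adjugate_eq_det_mul_inv t z hz] at h1
  simp only [expr]
  have h2 : (cmat Γ t.v z).det * Δ z ^ (m + 1) ≠ 0 := mul_ne_zero hz (pow_ne_zero _ hΔ)
  apply mul_left_cancel₀ h2
  rw [← h1, div_pow, ← pow_mul]
  field_simp
  ring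

/-! ### Transformation behaviour -/

theorem smul_E₄ (g : SL(2, ℤ)) (z : ℍ) : E₄ (g • z) = denom g z ^ (4 : ℤ) * E₄ z :=
  SlashInvariantForm.slash_action_eqn'' E₄
    (⟨g, rfl⟩ : Matrix.SpecialLinearGroup.mapGL ℝ g ∈ (Matrix.SpecialLinearGroup.mapGL ℝ).range) z

theorem smul_E₆ (g : SL(2, ℤ)) (z : ℍ) : E₆ (g • z) = denom g z ^ (6 : ℤ) * E₆ z :=
  SlashInvariantForm.slash_action_eqn'' E₆
    (⟨g, rfl⟩ : Matrix.SpecialLinearGroup.mapGL ℝ g ∈ (Matrix.SpecialLinearGroup.mapGL ℝ).range) z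

theorem smul_Δ (g : SL(2, ℤ)) (z : ℍ) : Δ (g • z) = denom g z ^ (12 : ℤ) * Δ z :=
  SlashInvariantForm.slash_action_eqn'' CuspForm.discriminant
    (⟨g, rfl⟩ : Matrix.SpecialLinearGroup.mapGL ℝ g ∈ (Matrix.SpecialLinearGroup.mapGL ℝ).range) z

/-- The transformation law of `expr` under `SL(2,ℤ)`. -/
theorem expr_smul (t : Tuple Γ) (g : SL(2, ℤ)) (x k : SL(2, ℤ) ⧸ Γ) (m : ℕ) (z : ℍ) :
    expr t x k m (g • z) = denom g z ^ 2 * expr t (g⁻¹ • x) k m z := by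
  have hd : denom g z ≠ 0 := denom_ne_zero _ z
  have hΔ := ModularForm.discriminant_ne_zero z
  simp only [expr]
  rw [cmat_inv_smul, smul_E₄, smul_E₆, smul_Δ]
  have e4 : denom g z ^ (4 : ℤ) = denom g z ^ 4 := by norm_cast
  have e6 : denom g z ^ (6 : ℤ) = denom g z ^ 6 := by norm_cast
  have e12 : denom g z ^ (12 : ℤ) = denom g z ^ 12 := by norm_cast
  rw [e4, e6, e12]
  have h1 : (denom g z ^ 4 * E₄ z) ^ 3 / (denom g z ^ 12 * Δ z) = E₄ z ^ 3 / Δ z := by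
    field_simp
  have h2 : (denom g z ^ 4 * E₄ z) ^ 2 * (denom g z ^ 6 * E₆ z) / (denom g z ^ 12 * Δ z)
      = denom g z ^ 2 * (E₄ z ^ 2 * E₆ z / Δ z) := by
    field_simp
  rw [h1, h2]
  ring

theorem det_smul_ne_zero (t : Tuple Γ) (g : SL(2, ℤ)) (z : ℍ) (hz : (cmat Γ t.v z).det ≠ 0) :
    (cmat Γ t.v (g • z)).det ≠ 0 := by
  intro h
  have := det_sq_smul t g z
  rw [h, zero_pow two_ne_zero] at this
  exact hz ((pow_eq_zero_iff two_ne_zero).mp this.symm)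

/-- On the set where the determinant does not vanish, the slash translates of the quotient are
given by `expr`. -/
theorem slash_quot_eq_expr {t : Tuple Γ} {k : SL(2, ℤ) ⧸ Γ} {m : ℕ} {h : ℍ → ℂ}
    (hh : ∀ z, num t k m z = den t m z * h z) (g : SL(2, ℤ)) (z : ℍ)
    (hz : (cmat Γ t.v z).det ≠ 0) :
    (h ∣[(2 : ℤ)] g) z = expr t (g⁻¹ • x0 Γ) k m z := by
  have hd : denom g z ≠ 0 := denom_ne_zero _ z
  rw [ModularForm.SL_slash_apply, quot_eq_expr hh (g • z) (det_smul_ne_zero t g z hz), expr_smul]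
  have e2 : denom g z ^ (-(2 : ℤ)) = (denom g z ^ 2)⁻¹ := by
    rw [zpow_neg]; norm_cast
  show denom g z ^ 2 * expr t (g⁻¹ • x0 Γ) k m z * denom g z ^ (-(2 : ℤ)) = _
  rw [e2]
  field_simp

omit [Fintype (SL(2, ℤ) ⧸ Γ)] [DecidableEq (SL(2, ℤ) ⧸ Γ)] in
theorem inv_smul_x0 {γ : SL(2, ℤ)} (hγ : γ ∈ Γ) : γ⁻¹ • x0 Γ = x0 Γ := by
  show ((γ⁻¹ * 1 : SL(2, ℤ)) : SL(2, ℤ) ⧸ Γ) = ((1 : SL(2, ℤ)) : SL(2, ℤ) ⧸ Γ)
  rw [mul_one, QuotientGroup.eq]
  simpa using hγ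

/-- Weight `2` invariance of the quotient under `Γ`. -/
theorem slash_quot_eq {t : Tuple Γ} {k : SL(2, ℤ) ⧸ Γ} {m : ℕ} {h : ℍ → ℂ} (hmd : MDiff h)
    (hh : ∀ z, num t k m z = den t m z * h z) {γ : SL(2, ℤ)} (hγ : γ ∈ Γ) :
    h ∣[(2 : ℤ)] γ = h := by
  have hc1 : Continuous (h ∣[(2 : ℤ)] γ) := (hmd.slash 2 _).continuous
  refine Continuous.ext_on (dense_det_ne_zero t) hc1 hmd.continuous fun z hz => ?_
  rw [slash_quot_eq_expr hh γ z hz, inv_smul_x0 hγ, quot_eq_expr hh z hz]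

/-! ### Vanishing at the cusps -/

theorem isBoundedAtImInfty_pow {f : ℍ → ℂ} (hf : IsBoundedAtImInfty f) (n : ℕ) :
    IsBoundedAtImInfty (fun z => f z ^ n) := by
  induction n with
  | zero =>
    simp only [pow_zero]
    exact const_boundedAtFilter atImInfty (1 : ℂ)
  | succ n ih =>
    have := BoundedAtFilter.mul ih hf
    refine this.congr' (Eventually.of_forall fun z => ?_) (Filter.EventuallyEq.refl _ _)
    simp [pow_succ]

theorem isZeroAtImInfty_expr [Γ.FiniteIndex] {t : Tuple Γ} (hred : t.Reduced)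
    (x k : SL(2, ℤ) ⧸ Γ) (m : ℕ) (hm : m + 2 ≤ t.d k) : IsZeroAtImInfty (expr t x k m) := by
  have hk : 1 ≤ t.d k := by omega
  have h0 := inv_zero_at_infty hred x k hk
  obtain ⟨a, ha⟩ : ∃ a, t.d k - 1 = a + (m + 1) := ⟨t.d k - 1 - (m + 1), by omega⟩
  rw [ha] at h0
  have hbE₄ : IsBoundedAtImInfty (fun z : ℍ => E₄ z) := ModularFormClass.bdd_at_infty E₄
  have hbE₆ : IsBoundedAtImInfty (fun z : ℍ => E₆ z) := ModularFormClass.bdd_at_infty E₆
  have hbΔ : IsBoundedAtImInfty (fun z : ℍ => Δ z) :=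
    ModularForm.discriminant_isZeroAtImInfty.isBoundedAtImInfty
  have hb1 : IsBoundedAtImInfty (fun z : ℍ => E₄ z ^ (3 * m + 2)) :=
    isBoundedAtImInfty_pow hbE₄ _
  have hb2 : IsBoundedAtImInfty (fun z : ℍ => Δ z ^ a) := isBoundedAtImInfty_pow hbΔ _
  have hb : IsBoundedAtImInfty (fun z : ℍ => E₄ z ^ (3 * m + 2) * E₆ z * Δ z ^ a) :=
    BoundedAtFilter.mul (BoundedAtFilter.mul hb1 hbE₆) hb2
  have hz := BoundedAtFilter.mul_zeroAtFilter hb h0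
  refine Filter.Tendsto.congr (fun z => ?_) hz
  have hΔ := ModularForm.discriminant_ne_zero z
  show E₄ z ^ (3 * m + 2) * E₆ z * Δ z ^ a * ((Δ z)⁻¹ ^ (a + (m + 1)) * (cmat Γ t.v z)⁻¹ x k)
    = (E₄ z ^ 3 / Δ z) ^ m * (E₄ z ^ 2 * E₆ z / Δ z) * (cmat Γ t.v z)⁻¹ x k
  rw [div_pow, ← pow_mul, inv_pow]
  field_simp
  ring

/-- All `SL(2,ℤ)`-translates of the quotient vanish at `i∞`. -/
theorem isZeroAtImInfty_slash_quot [Γ.FiniteIndex] {t : Tuple Γ} (hred : t.Reduced)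
    {k : SL(2, ℤ) ⧸ Γ} {m : ℕ} (hm : m + 2 ≤ t.d k) {h : ℍ → ℂ} (hmd : MDiff h)
    (hh : ∀ z, num t k m z = den t m z * h z) (g : SL(2, ℤ)) :
    IsZeroAtImInfty (h ∣[(2 : ℤ)] g) :=
  isZeroAtImInfty_of_eqOn_dense (hmd.slash 2 _).continuous
    (isZeroAtImInfty_expr hred (g⁻¹ • x0 Γ) k m hm) (dense_det_ne_zero t)
    fun z hz => slash_quot_eq_expr hh g z hz

/-- **E-DUAL, part D2** (with the local bound `inv_bound_finite` as a hypothesis).
The dual cusp forms. -/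
theorem exists_cuspForm_dual_of_locBound [Γ.FiniteIndex] {t : Tuple Γ} (hloc : LocBound t)
    (hred : t.Reduced) (k : SL(2, ℤ) ⧸ Γ) (m : ℕ) (hm : m + 2 ≤ t.d k) :
    ∃ ω : CuspForm (Γ.map (Matrix.SpecialLinearGroup.mapGL ℝ)) 2, ∀ z : ℍ,
      (cmat Γ t.v z).det ≠ 0 →
        ω z = (E₄ z ^ 3 / Δ z) ^ m * (E₄ z ^ 2 * E₆ z / Δ z) * (cmat Γ t.v z)⁻¹ (x0 Γ) k := by
  obtain ⟨h, hmd, hh⟩ := exists_quot hloc k m
  obtain ⟨ω, hω⟩ := exists_cuspForm_of Γ 2 h hmd (fun γ hγ => slash_quot_eq hmd hh hγ)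
    (fun g => isZeroAtImInfty_slash_quot hred hm hmd hh g)
  refine ⟨ω, fun z hz => ?_⟩
  have : ω z = h z := congrFun hω z
  rw [this, quot_eq_expr hh z hz]
  rfl

end

end Fermat.Agent.S21.E.Dual
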