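import Fermat.Agent.S21.E.Loc
import Fermat.Agent.S21.E.Dual.Construct

/-!
# Project ES, part E, work package E-DUAL, part D2: the dual cusp forms (final form)
-/

set_option autoImplicit false

open UpperHalfPlane hiding I
open Complex Filter Function Topology
open scoped Manifold MatrixGroups ModularForm Real

namespace Fermat.Agent.S21.E.Dual

noncomputable section

local notation "Δ" => ModularForm.discriminant
local notation "E₄" => ModularForm.E₄
local notation "E₆" => ModularForm.E₆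

variable {Γ : Subgroup SL(2, ℤ)} [Fintype (SL(2, ℤ) ⧸ Γ)] [DecidableEq (SL(2, ℤ) ⧸ Γ)]

/-- **E-DUAL, part D2.** The dual cusp forms. -/
theorem exists_cuspForm_dual [Γ.FiniteIndex] (hneg : -1 ∈ Γ) {t : Tuple Γ} (hsat : t.Saturated)
    (hred : t.Reduced) (k : SL(2, ℤ) ⧸ Γ) (m : ℕ) (hm : m + 2 ≤ t.d k) :
    ∃ ω : CuspForm (Γ.map (Matrix.SpecialLinearGroup.mapGL ℝ)) 2, ∀ z : ℍ,
      (cmat Γ t.v z).det ≠ 0 →
        ω z = (E₄ z ^ 3 / Δ z) ^ m * (E₄ z ^ 2 * E₆ z / Δ z) * (cmat Γ t.v z)⁻¹ (x0 Γ) k :=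
  exists_cuspForm_dual_of_locBound (fun z₀ => inv_bound_finite hneg hsat z₀) hred k m hm

end

end Fermat.Agent.S21.E.Dual
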