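import Fermat.Agent.S21.E.Api
import Fermat.Agent.S21.E.J1

/-!
# Project ES, part E, work package E-DUAL, part D1: linear independence and counting

Given, for every `k` and `m` with `m + 2 ≤ d k`, a cusp form `ω_{k,m}` of weight `2` with
`ω_{k,m} = j ^ m * (E₄² E₆ / Δ) * N_{x0,k}` off the zeros of the determinant
(`N = (cmat)⁻¹`, `j = E₄³ / Δ`), the family `(ω_{k,m})` is linearly independent and has
`total + 1 - index` members.
-/

set_option autoImplicit false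

open UpperHalfPlane hiding I
open Complex Filter Function Topology
open scoped Manifold MatrixGroups ModularForm Real Matrix

namespace Fermat.Agent.S21.E.Dual.Indep

noncomputable section

local notation "Δ" => ModularForm.discriminant
local notation "E₄" => ModularForm.E₄
local notation "E₆" => ModularForm.E₆

/-- isolated zeros in `ℍ` -/
theorem eventually_ne_zero_of_mdiff {F : ℍ → ℂ} (hF : MDiff F) (hne : ∃ z, F z ≠ 0) (z₀ : ℍ) :
    ∀ᶠ z : ℍ in 𝓝[≠] z₀, F z ≠ 0 := by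
  have hF' := UpperHalfPlane.mdifferentiable_iff.mp hF
  have han : AnalyticOnNhd ℂ (F ∘ ofComplex) upperHalfPlaneSet :=
    hF'.analyticOnNhd isOpen_upperHalfPlaneSet
  have hpre : IsPreconnected upperHalfPlaneSet := (convex_halfSpace_im_gt 0).isPreconnected
  have hC : ∀ᶠ w : ℂ in 𝓝[≠] (z₀ : ℂ), F (ofComplex w) ≠ 0 := by
    by_contra hcon
    rw [Filter.not_eventually] at hcon
    have hfreq : ∃ᶠ w in 𝓝[≠] (z₀ : ℂ), (F ∘ ofComplex) w = 0 :=
      hcon.mono fun w hw => by simpa using hw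
    have h0 := han.eqOn_zero_of_preconnected_of_frequently_eq_zero hpre z₀.im_pos hfreq
    obtain ⟨z, hz⟩ := hne
    apply hz
    have := h0 z.im_pos
    simpa using this
  have ht : Tendsto (fun z : ℍ => (z : ℂ)) (𝓝[≠] z₀) (𝓝[≠] (z₀ : ℂ)) := by
    apply tendsto_nhdsWithin_of_tendsto_nhds_of_eventually_within
    · exact (UpperHalfPlane.continuous_coe.tendsto z₀).mono_left nhdsWithin_le_nhds
    · filter_upwards [self_mem_nhdsWithin] with z hz
      intro h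
      exact hz (UpperHalfPlane.ext h)
  filter_upwards [ht.eventually hC] with z hz
  simpa using hz

theorem mdiff_E₄ : MDiff (E₄ : ℍ → ℂ) := ModularFormClass.holo E₄
theorem mdiff_E₆ : MDiff (E₆ : ℍ → ℂ) := ModularFormClass.holo E₆
theorem mdiff_Δ : MDiff (Δ : ℍ → ℂ) := ModularFormClass.holo CuspForm.discriminant

theorem mdiff_jsub (c : ℂ) : MDiff (fun z : ℍ => E₄ z ^ 3 - c * Δ z) := by
  rw [mdifferentiable_iff]
  have h4 : DifferentiableOn ℂ ((E₄ : ℍ → ℂ) ∘ ofComplex) {z | 0 < z.im} :=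
    mdifferentiable_iff.1 mdiff_E₄
  have hΔ : DifferentiableOn ℂ ((Δ : ℍ → ℂ) ∘ ofComplex) {z | 0 < z.im} :=
    mdifferentiable_iff.1 mdiff_Δ
  exact (h4.pow 3).sub (hΔ.const_mul c)

/-- `j` takes every value only on a discrete set -/
theorem eventually_j_ne (c : ℂ) (z₀ : ℍ) :
    ∀ᶠ z : ℍ in 𝓝[≠] z₀, E₄ z ^ 3 / Δ z ≠ c := by
  have hne : ∃ z : ℍ, E₄ z ^ 3 - c * Δ z ≠ 0 := by
    by_cases hc : c = 0
    · refine ⟨UpperHalfPlane.I, ?_⟩
      rw [hc, zero_mul, sub_zero]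
      exact pow_ne_zero 3 Fermat.Agent.S21.J1.E₄_I_ne_zero
    · refine ⟨Fermat.Agent.S21.J1.rho, ?_⟩
      rw [Fermat.Agent.S21.J1.E₄_rho]
      simpa using mul_ne_zero hc (ModularForm.discriminant_ne_zero _)
  filter_upwards [eventually_ne_zero_of_mdiff (mdiff_jsub c) hne z₀] with z hz
  intro h
  apply hz
  have hΔ := ModularForm.discriminant_ne_zero z
  rw [div_eq_iff hΔ] at h
  rw [h]; ring

/-- a nonzero polynomial in `j` vanishes only on a discrete set -/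
theorem eventually_eval_j_ne_zero {P : Polynomial ℂ} (hP : P ≠ 0) (z₀ : ℍ) :
    ∀ᶠ z : ℍ in 𝓝[≠] z₀, P.eval (E₄ z ^ 3 / Δ z) ≠ 0 := by
  have h : ∀ᶠ z : ℍ in 𝓝[≠] z₀, ∀ c ∈ P.roots.toFinset, E₄ z ^ 3 / Δ z ≠ c :=
    (Filter.eventually_all_finset _).mpr fun c _ => eventually_j_ne c z₀
  filter_upwards [h] with z hz
  intro h0
  have hmem : E₄ z ^ 3 / Δ z ∈ P.roots.toFinset := by
    rw [Multiset.mem_toFinset, Polynomial.mem_roots hP]
    exact h0
  exact hz _ hmem rfl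

variable {Γ : Subgroup SL(2, ℤ)} [Fintype (SL(2, ℤ) ⧸ Γ)] [DecidableEq (SL(2, ℤ) ⧸ Γ)]

/-- the index set of the dual family -/
abbrev Idx (t : Tuple Γ) : Type := Σ k : SL(2, ℤ) ⧸ Γ, Fin (t.d k - 1)

/-- **core of the independence argument**: a relation `Σ_k P_k(j) W N_{x0,k} = 0` off the zeros
of the determinant forces all `P_k = 0`. -/
theorem poly_eq_zero_of_relation (t : Tuple Γ) (P : SL(2, ℤ) ⧸ Γ → Polynomial ℂ)
    (hrel : ∀ z : ℍ, (cmat Γ t.v z).det ≠ 0 →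
      ∑ k, (P k).eval (E₄ z ^ 3 / Δ z) * ((E₄ z ^ 2 * E₆ z / Δ z) *
        (cmat Γ t.v z)⁻¹ (x0 Γ) k) = 0) :
    ∀ k, P k = 0 := by
  intro k₀
  by_contra hk₀
  -- choose a good point
  have e1 := eventually_eval_j_ne_zero hk₀ UpperHalfPlane.I
  have e2 := det_eventually_ne_zero t UpperHalfPlane.I
  have e3 := eventually_ne_zero_of_mdiff mdiff_E₄ ⟨_, Fermat.Agent.S21.J1.E₄_I_ne_zero⟩
    UpperHalfPlane.I
  have e4 := eventually_ne_zero_of_mdiff mdiff_E₆ ⟨_, Fermat.Agent.S21.J1.E₆_rho_ne_zero⟩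
    UpperHalfPlane.I
  have : (𝓝[≠] (UpperHalfPlane.I : ℍ)).NeBot :=
    (Filter.frequently_true_iff_neBot _).mp
      ((det_frequently_ne_zero t UpperHalfPlane.I).mono fun _ _ => trivial)
  obtain ⟨z, hz1, hz2, hz3, hz4⟩ := (e1.and (e2.and (e3.and e4))).exists
  apply hz1
  -- the vector `p`
  set p : SL(2, ℤ) ⧸ Γ → ℂ := fun k => (P k).eval (E₄ z ^ 3 / Δ z) with hp
  have hΔ := ModularForm.discriminant_ne_zero z
  -- all rows of `N z` kill `p`
  have hrow : ∀ x : SL(2, ℤ) ⧸ Γ, ∑ k, (cmat Γ t.v z)⁻¹ x k * p k = 0 := by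
    intro x
    obtain ⟨g, rfl⟩ := QuotientGroup.mk_surjective x
    have hdet : (cmat Γ t.v (g⁻¹ • z)).det ≠ 0 := by
      intro h0
      have := det_sq_smul t g⁻¹ z
      rw [h0] at this
      rw [zero_pow two_ne_zero] at this
      exact hz2 ((pow_eq_zero_iff two_ne_zero).mp this.symm)
    have h := hrel (g⁻¹ • z) hdet
    have hj : E₄ (g⁻¹ • z) ^ 3 / Δ (g⁻¹ • z) = E₄ z ^ 3 / Δ z := by
      have h1 := Fermat.Agent.S21.J2.j_invariant z g⁻¹
      rw [div_eq_div_iff (ModularForm.discriminant_ne_zero _) hΔ]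
      linear_combination -h1
    have hW : E₄ (g⁻¹ • z) ^ 2 * E₆ (g⁻¹ • z) / Δ (g⁻¹ • z) ≠ 0 := by
      have h4 : E₄ (g⁻¹ • z) ≠ 0 := by
        rw [Ne, Fermat.Agent.S21.J1.levelOne_smul_eq_zero_iff]; exact hz3
      have h6 : E₆ (g⁻¹ • z) ≠ 0 := by
        rw [Ne, Fermat.Agent.S21.J1.levelOne_smul_eq_zero_iff]; exact hz4
      exact div_ne_zero (mul_ne_zero (pow_ne_zero 2 h4) h6)
        (ModularForm.discriminant_ne_zero _)
    have hN : ∀ k, (cmat Γ t.v (g⁻¹ • z))⁻¹ (x0 Γ) k = (cmat Γ t.v z)⁻¹ (g : SL(2, ℤ) ⧸ Γ) k := by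
      intro k
      rw [cmat_inv_smul]
      have hx : (g⁻¹)⁻¹ • x0 Γ = (g : SL(2, ℤ) ⧸ Γ) := by
        simp [x0, MulAction.Quotient.smul_mk]
      rw [hx]
    simp only [hj, hN] at h
    have h' : (E₄ (g⁻¹ • z) ^ 2 * E₆ (g⁻¹ • z) / Δ (g⁻¹ • z)) *
        ∑ k, (cmat Γ t.v z)⁻¹ (g : SL(2, ℤ) ⧸ Γ) k * p k = 0 := by
      rw [Finset.mul_sum, ← h]
      refine Finset.sum_congr rfl fun k _ => ?_
      simp only [hp]; ring
    exact (mul_eq_zero.mp h').resolve_left hW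
  -- invertibility
  have hunit : IsUnit (cmat Γ t.v z).det := isUnit_iff_ne_zero.mpr hz2
  have hmul : (cmat Γ t.v z) * (cmat Γ t.v z)⁻¹ = 1 := Matrix.mul_nonsing_inv _ hunit
  have hvec : (cmat Γ t.v z)⁻¹ *ᵥ p = 0 := by
    funext x
    simpa [Matrix.mulVec, dotProduct] using hrow x
  have hp0 : p = 0 := by
    have : p = ((cmat Γ t.v z) * (cmat Γ t.v z)⁻¹) *ᵥ p := by rw [hmul, Matrix.one_mulVec]
    rw [this, ← Matrix.mulVec_mulVec, hvec, Matrix.mulVec_zero]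
  exact congrFun hp0 k₀

/-- the dual family is linearly independent -/
theorem linearIndependent_of_dual (t : Tuple Γ)
    (ω : Idx t → CuspForm (Γ.map (Matrix.SpecialLinearGroup.mapGL ℝ)) 2)
    (hω : ∀ (i : Idx t) (z : ℍ), (cmat Γ t.v z).det ≠ 0 →
      ω i z = (E₄ z ^ 3 / Δ z) ^ (i.2 : ℕ) * (E₄ z ^ 2 * E₆ z / Δ z) *
        (cmat Γ t.v z)⁻¹ (x0 Γ) i.1) :
    LinearIndependent ℂ ω := by
  rw [Fintype.linearIndependent_iff]
  intro a ha i₀
  set P : SL(2, ℤ) ⧸ Γ → Polynomial ℂ := fun k =>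
    ∑ m : Fin (t.d k - 1), Polynomial.C (a ⟨k, m⟩) * Polynomial.X ^ (m : ℕ) with hPdef
  have hP : ∀ k, P k = 0 := by
    apply poly_eq_zero_of_relation t P
    intro z hz
    have h1 : ((∑ i, a i • ω i : CuspForm (Γ.map (Matrix.SpecialLinearGroup.mapGL ℝ)) 2) :
        ℍ → ℂ) z = 0 := by rw [ha]; rfl
    have h2 : ((∑ i, a i • ω i : CuspForm (Γ.map (Matrix.SpecialLinearGroup.mapGL ℝ)) 2) :
        ℍ → ℂ) = ∑ i, (a i • (ω i : ℍ → ℂ)) := by
      have := map_sum (FunLike.coeAddMonoidHom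
        (CuspForm (Γ.map (Matrix.SpecialLinearGroup.mapGL ℝ)) 2) ℍ ℂ)
        (fun i => a i • ω i) Finset.univ
      simp only [FunLike.coeAddMonoidHom_apply] at this
      rw [this]
      rfl
    rw [h2, Finset.sum_apply] at h1
    rw [← h1, Fintype.sum_sigma]
    refine Finset.sum_congr rfl fun k _ => ?_
    simp only [hPdef, Polynomial.eval_finsetSum, Polynomial.eval_mul, Polynomial.eval_C,
      Polynomial.eval_pow, Polynomial.eval_X, Finset.sum_mul]
    refine Finset.sum_congr rfl fun m _ => ?_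
    simp only [Pi.smul_apply, smul_eq_mul]
    rw [hω ⟨k, m⟩ z hz]
    ring
  -- extract the coefficient
  obtain ⟨k, m⟩ := i₀
  have h := congrArg (fun Q : Polynomial ℂ => Q.coeff (m : ℕ)) (hP k)
  simp only [hPdef, Polynomial.finsetSum_coeff, Polynomial.coeff_C_mul, Polynomial.coeff_X_pow,
    Polynomial.coeff_zero, mul_ite, mul_one, mul_zero] at h
  rw [Finset.sum_eq_single m] at h
  · simpa using h
  · intro m' _ hm'
    rw [if_neg]
    intro hmm
    exact hm' (Fin.ext hmm.symm)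
  · intro hm
    exact absurd (Finset.mem_univ m) hm

/-- the number of members of the dual family -/
theorem card_Idx [Γ.FiniteIndex] (t : Tuple Γ) :
    Fintype.card (Idx t) = t.total + 1 - Γ.index := by
  have hidx : Γ.index = Fintype.card (SL(2, ℤ) ⧸ Γ) := by
    rw [Subgroup.index_eq_card, Nat.card_eq_fintype_card]
  rw [Fintype.card_sigma]
  simp only [Fintype.card_fin]
  have hsum : ∑ k : SL(2, ℤ) ⧸ Γ, (t.d k - 1) + Fintype.card (SL(2, ℤ) ⧸ Γ) = t.total + 1 := by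
    rw [Tuple.total, ← Finset.card_univ, Finset.card_eq_sum_ones, ← Finset.sum_add_distrib]
    rw [← Finset.add_sum_erase _ _ (Finset.mem_univ (x0 Γ)),
      ← Finset.add_sum_erase (f := t.d) _ (Finset.mem_univ (x0 Γ)), t.d_one]
    have : ∑ k ∈ Finset.univ.erase (x0 Γ), (t.d k - 1 + 1) =
        ∑ k ∈ Finset.univ.erase (x0 Γ), t.d k := by
      refine Finset.sum_congr rfl fun k hk => ?_
      have := Tuple.d_pos t k (Finset.ne_of_mem_erase hk)
      omega
    rw [this]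
    omega
  omega

/-- **E-DUAL, part D1**: linear independence and counting, given the construction. -/
theorem exists_linearIndependent_of_construct [Γ.FiniteIndex] (t : Tuple Γ)
    (hcons : ∀ (k : SL(2, ℤ) ⧸ Γ) (m : ℕ), m + 2 ≤ t.d k →
      ∃ ω : CuspForm (Γ.map (Matrix.SpecialLinearGroup.mapGL ℝ)) 2,
        ∀ z : ℍ, (cmat Γ t.v z).det ≠ 0 →
          ω z = (E₄ z ^ 3 / Δ z) ^ m * (E₄ z ^ 2 * E₆ z / Δ z) *
            (cmat Γ t.v z)⁻¹ (x0 Γ) k) :
    ∃ ω : Fin (t.total + 1 - Γ.index) →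
        CuspForm (Γ.map (Matrix.SpecialLinearGroup.mapGL ℝ)) 2,
      LinearIndependent ℂ ω := by
  have hm : ∀ i : Idx t, (i.2 : ℕ) + 2 ≤ t.d i.1 := fun i => by
    have := i.2.isLt
    omega
  choose ω hω using fun i : Idx t => hcons i.1 i.2 (hm i)
  have hli := linearIndependent_of_dual t ω hω
  let e : Fin (t.total + 1 - Γ.index) ≃ Idx t :=
    (Fintype.equivFinOfCardEq (card_Idx t)).symm
  exact ⟨ω ∘ e, hli.comp e e.injective⟩

end

end Fermat.Agent.S21.E.Dual.Indep
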